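import Mathlib

/-!
# Prime Dirichlet sums with a logarithmic main term (helper41)

`HasLogDensity a c` : the bounded sequence `a` on the primes satisfies
`∑_p a p * p ^ (-s) = c * log (1 / (s - 1)) + O(1)` on `(1, 2]`.
Linear combinations, insensitivity to finitely many terms, and non-vanishing when `c > 0`.
Mathlib only.
-/

set_option autoImplicit false

namespace Fermat.Agent.Lib.Cheb.H41

/-- The prime Dirichlet sum `∑_p a p * p ^ (-s)`. -/
noncomputable def pSum (a : Nat.Primes → ℝ) (s : ℝ) : ℝ :=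
  ∑' p : Nat.Primes, a p * ((p : ℕ) : ℝ) ^ (-s)

/-- `a` is bounded and `∑_p a p * p ^ (-s) - c * log (1 / (s - 1))` is bounded on `(1, 2]`. -/
def HasLogDensity (a : Nat.Primes → ℝ) (c : ℝ) : Prop :=
  (∃ K : ℝ, ∀ p, |a p| ≤ K) ∧
    ∃ C : ℝ, ∀ s : ℝ, 1 < s → s ≤ 2 → |pSum a s - c * Real.log (1 / (s - 1))| ≤ C

lemma summable_pSum {a : Nat.Primes → ℝ} {K : ℝ} (hK : ∀ p, |a p| ≤ K) {s : ℝ} (hs : 1 < s) :
    Summable fun p : Nat.Primes => a p * ((p : ℕ) : ℝ) ^ (-s) := by
  have h1 : Summable fun p : Nat.Primes => K * ((p : ℕ) : ℝ) ^ (-s) :=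
    (Nat.Primes.summable_rpow.mpr (by linarith)).mul_left K
  refine Summable.of_norm_bounded h1 fun p => ?_
  have hp : (0 : ℝ) ≤ ((p : ℕ) : ℝ) ^ (-s) := Real.rpow_nonneg (Nat.cast_nonneg _) _
  rw [Real.norm_eq_abs, abs_mul, abs_of_nonneg hp]
  exact mul_le_mul_of_nonneg_right (hK p) hp

lemma pSum_add {a b : Nat.Primes → ℝ} {K K' : ℝ} (hK : ∀ p, |a p| ≤ K) (hK' : ∀ p, |b p| ≤ K')
    {s : ℝ} (hs : 1 < s) : pSum (fun p => a p + b p) s = pSum a s + pSum b s := by
  unfold pSum
  rw [← (summable_pSum hK hs).tsum_add (summable_pSum hK' hs)]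
  exact tsum_congr fun p => by ring

lemma pSum_const_mul (a : Nat.Primes → ℝ) (r : ℝ) (s : ℝ) :
    pSum (fun p => r * a p) s = r * pSum a s := by
  unfold pSum
  rw [← tsum_mul_left]
  exact tsum_congr fun p => by ring

lemma HasLogDensity.add {a b : Nat.Primes → ℝ} {c d : ℝ} (ha : HasLogDensity a c)
    (hb : HasLogDensity b d) : HasLogDensity (fun p => a p + b p) (c + d) := by
  obtain ⟨⟨K, hK⟩, C, hC⟩ := ha
  obtain ⟨⟨K', hK'⟩, C', hC'⟩ := hb
  refine ⟨⟨K + K', fun p => (abs_add_le _ _).trans (add_le_add (hK p) (hK' p))⟩, C + C', ?_⟩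
  intro s hs hs2
  rw [pSum_add hK hK' hs]
  have h1 := hC s hs hs2
  have h2 := hC' s hs hs2
  have : pSum a s + pSum b s - (c + d) * Real.log (1 / (s - 1)) =
      (pSum a s - c * Real.log (1 / (s - 1))) + (pSum b s - d * Real.log (1 / (s - 1))) := by ring
  rw [this]
  exact (abs_add_le _ _).trans (add_le_add h1 h2)

lemma HasLogDensity.const_mul {a : Nat.Primes → ℝ} {c : ℝ} (ha : HasLogDensity a c) (r : ℝ) :
    HasLogDensity (fun p => r * a p) (r * c) := by
  obtain ⟨⟨K, hK⟩, C, hC⟩ := ha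
  refine ⟨⟨|r| * K, fun p => ?_⟩, |r| * C, ?_⟩
  · rw [abs_mul]
    exact mul_le_mul_of_nonneg_left (hK p) (abs_nonneg r)
  · intro s hs hs2
    rw [pSum_const_mul]
    have : r * pSum a s - r * c * Real.log (1 / (s - 1)) =
        r * (pSum a s - c * Real.log (1 / (s - 1))) := by ring
    rw [this, abs_mul]
    exact mul_le_mul_of_nonneg_left (hC s hs hs2) (abs_nonneg r)

lemma HasLogDensity.neg {a : Nat.Primes → ℝ} {c : ℝ} (ha : HasLogDensity a c) :
    HasLogDensity (fun p => - a p) (- c) := by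
  simpa using ha.const_mul (-1)

lemma HasLogDensity.sub {a b : Nat.Primes → ℝ} {c d : ℝ} (ha : HasLogDensity a c)
    (hb : HasLogDensity b d) : HasLogDensity (fun p => a p - b p) (c - d) := by
  simpa [sub_eq_add_neg] using ha.add hb.neg

lemma hasLogDensity_zero : HasLogDensity (fun _ => 0) 0 := by
  refine ⟨⟨0, fun p => by simp⟩, 0, fun s _ _ => ?_⟩
  simp [pSum]

lemma HasLogDensity.finset_sum {ι : Type*} (t : Finset ι) (a : ι → Nat.Primes → ℝ) (c : ι → ℝ)
    (h : ∀ i ∈ t, HasLogDensity (a i) (c i)) :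
    HasLogDensity (fun p => ∑ i ∈ t, a i p) (∑ i ∈ t, c i) := by
  classical
  induction t using Finset.induction_on with
  | empty => simpa using hasLogDensity_zero
  | insert i t hi ih =>
    have h1 := h i (Finset.mem_insert_self i t)
    have h2 := ih fun j hj => h j (Finset.mem_insert_of_mem hj)
    simpa [Finset.sum_insert hi] using h1.add h2

/-- A sequence with finite support has log density `0`. -/
lemma hasLogDensity_zero_of_finite {a : Nat.Primes → ℝ} (T : Finset Nat.Primes)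
    (hT : ∀ p, p ∉ T → a p = 0) : HasLogDensity a 0 := by
  have hK : ∀ p, |a p| ≤ ∑ q ∈ T, |a q| := by
    intro p
    by_cases hp : p ∈ T
    · exact Finset.single_le_sum (f := fun q => |a q|) (fun q _ => abs_nonneg _) hp
    · rw [hT p hp, abs_zero]
      exact Finset.sum_nonneg fun q _ => abs_nonneg _
  refine ⟨⟨_, hK⟩, ∑ q ∈ T, |a q|, fun s hs _ => ?_⟩
  have h0 : pSum a s = ∑ q ∈ T, a q * ((q : ℕ) : ℝ) ^ (-s) := by
    unfold pSum
    exact tsum_eq_sum fun p hp => by rw [hT p hp, zero_mul]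
  rw [zero_mul, sub_zero, h0]
  refine (Finset.abs_sum_le_sum_abs _ _).trans (Finset.sum_le_sum fun q _ => ?_)
  rw [abs_mul]
  have h1 : |((q : ℕ) : ℝ) ^ (-s)| ≤ 1 := by
    rw [abs_of_nonneg (Real.rpow_nonneg (Nat.cast_nonneg _) _)]
    refine Real.rpow_le_one_of_one_le_of_nonpos ?_ (by linarith)
    exact_mod_cast q.2.one_lt.le
  calc |a q| * |((q : ℕ) : ℝ) ^ (-s)| ≤ |a q| * 1 :=
        mul_le_mul_of_nonneg_left h1 (abs_nonneg _)
    _ = |a q| := mul_one _

/-- Changing a bounded sequence on a finite set of primes does not change its log density. -/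
lemma HasLogDensity.congr_of_finite {a b : Nat.Primes → ℝ} {c : ℝ} (ha : HasLogDensity a c)
    (T : Finset Nat.Primes) (hT : ∀ p, p ∉ T → b p = a p) : HasLogDensity b c := by
  have h1 : HasLogDensity (fun p => b p - a p) 0 :=
    hasLogDensity_zero_of_finite T fun p hp => by rw [hT p hp, sub_self]
  have h2 := ha.add h1
  have e : (fun p => a p + (b p - a p)) = b := by
    funext p; ring
  rw [e, add_zero] at h2
  exact h2

/-- A sequence of positive log density does not vanish identically. -/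
lemma HasLogDensity.exists_ne_zero {a : Nat.Primes → ℝ} {c : ℝ} (ha : HasLogDensity a c)
    (hc : 0 < c) : ∃ p, a p ≠ 0 := by
  by_contra hne0
  have hne : ∀ p, a p = 0 := fun p => by_contra fun h => hne0 ⟨p, h⟩
  obtain ⟨-, C, hC⟩ := ha
  have h0 : ∀ s, pSum a s = 0 := fun s => by simp [pSum, hne]
  have hC0 : 0 ≤ C := (abs_nonneg _).trans (hC 2 (by norm_num) le_rfl)
  set x : ℝ := C / c + 1 with hx
  have hxpos : 0 < x := by positivity
  set s : ℝ := 1 + Real.exp (-x) with hs
  have hs1 : 1 < s := by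
    have := Real.exp_pos (-x)
    linarith
  have hs2 : s ≤ 2 := by
    have : Real.exp (-x) ≤ 1 := Real.exp_le_one_iff.mpr (by linarith)
    linarith
  have hlog : Real.log (1 / (s - 1)) = x := by
    have : s - 1 = Real.exp (-x) := by rw [hs]; ring
    rw [this, one_div, ← Real.exp_neg, neg_neg, Real.log_exp]
  have h := hC s hs1 hs2
  rw [h0, hlog, zero_sub, abs_neg, abs_of_pos (mul_pos hc hxpos)] at h
  have : c * x = C + c := by
    rw [hx]; field_simp
  linarith

end Fermat.Agent.Lib.Cheb.H41
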