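import Fermat.Agent.Lib.Cheb.Spec
import Fermat.Agent.Lib.Cheb.H41.LogDensity

/-!
# Piece M of the shared library CHEB (helper41, second independent copy)

`frobFinite : PrimeSumStatement → PrimeCountBoundStatement → CountStatement → FrobStatement →
FrobFiniteStatement`, in the exact shapes of `Fermat/Agent/Lib/Cheb/Spec.lean`.

Method: for a subgroup `X` of `G = Gal(L/ℚ)` let `v_X(p) = |X| · #{P ∣ p : D_P = X}` (set to `0` on a
finite set of bad primes).  `decompWeight L H p = ∑_{X ≤ H} v_X(p)`, and by (Z), (B0), (A) the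
left side has log density `|H|`.  Well-founded induction over the subgroup lattice gives that `v_X`
has log density `ψ(X) = #{x : zpowers x = X}` (uses `|X| = ∑_{Y ≤ X} ψ(Y)`).  `ψ(zpowers σ) ≥ 1`,
so some good prime `p` has a prime `P ∣ p` with `D_P = zpowers σ`; (D) concludes.
-/

set_option autoImplicit false

open NumberField
open scoped Pointwise

namespace Fermat.Agent.Lib.Cheb.H41

open Fermat.Agent.Lib.Cheb.Spec

section Combinatorics

variable (L : Type) [Field L] [NumberField L]

/-- Finitely many primes of `𝓞 L` contain a given rational prime. -/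
lemma finite_primes_mem (p : ℕ) (hp : p.Prime) :
    {P : Ideal (𝓞 L) | P.IsPrime ∧ (p : 𝓞 L) ∈ P}.Finite := by
  have h := Algebra.QuasiFinite.finite_primesOver (R := ℤ) (S := 𝓞 L) (Ideal.span {(p : ℤ)})
  refine h.subset ?_
  rintro P ⟨hP, hpP⟩
  refine ⟨hP, ⟨?_⟩⟩
  have : Fact p.Prime := ⟨hp⟩
  have hmax := Int.ideal_span_isMaximal_of_prime p
  refine hmax.eq_of_le ?_ ?_
  · intro htop
    have h1 : (1 : ℤ) ∈ Ideal.under ℤ P := by rw [htop]; trivial
    rw [Ideal.mem_under] at h1
    apply hP.ne_top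
    rw [Ideal.eq_top_iff_one]
    simpa using h1
  · rw [Ideal.span_singleton_le_iff_mem, Ideal.mem_under]
    simpa using hpP

/-- The primes above `p` whose decomposition group is exactly `X`. -/
def primesEq (X : Subgroup (L ≃ₐ[ℚ] L)) (p : ℕ) : Set (Ideal (𝓞 L)) :=
  {P | P.IsPrime ∧ (p : 𝓞 L) ∈ P ∧ decomp L P = X}

lemma finite_primesEq (X : Subgroup (L ≃ₐ[ℚ] L)) (p : ℕ) (hp : p.Prime) :
    (primesEq L X p).Finite :=
  (finite_primes_mem L p hp).subset fun _ hP => ⟨hP.1, hP.2.1⟩

lemma finite_primesLe (H : Subgroup (L ≃ₐ[ℚ] L)) (p : ℕ) (hp : p.Prime) :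
    (primesLe L H p).Finite :=
  (finite_primes_mem L p hp).subset fun _ hP => ⟨hP.1, hP.2.1⟩

open Classical in
/-- `decompWeight` as a sum over the subgroups `X ≤ H`. -/
lemma decompWeight_eq_sum [IsGalois ℚ L] (H : Subgroup (L ≃ₐ[ℚ] L)) (p : ℕ) (hp : p.Prime) :
    decompWeight L H p =
      ∑ X ∈ Finset.univ.filter (fun X : Subgroup (L ≃ₐ[ℚ] L) => X ≤ H),
        Nat.card X * (primesEq L X p).ncard := by
  unfold decompWeight
  rw [finsum_set_coe_eq_finsum_mem (primesLe L H p) (f := fun P => Nat.card (decomp L P)),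
    finsum_mem_eq_finite_toFinset_sum _ (finite_primesLe L H p hp)]
  have hmaps : Set.MapsTo (fun P : Ideal (𝓞 L) => decomp L P)
      ((finite_primesLe L H p hp).toFinset : Set (Ideal (𝓞 L)))
      ((Finset.univ.filter (fun X : Subgroup (L ≃ₐ[ℚ] L) => X ≤ H) : Finset _) : Set _) := by
    intro P hP
    simp only [Set.Finite.coe_toFinset] at hP
    simpa using hP.2.2
  rw [← Finset.sum_fiberwise_of_maps_to hmaps]
  refine Finset.sum_congr rfl fun X hX => ?_
  have hXH : X ≤ H := by simpa using hX
  have hset : ((finite_primesLe L H p hp).toFinset.filter fun P => decomp L P = X) =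
      (finite_primesEq L X p hp).toFinset := by
    ext P
    simp only [Finset.mem_filter, Set.Finite.mem_toFinset, primesLe, primesEq, Set.mem_ofPred_eq]
    constructor
    · rintro ⟨⟨h1, h2, -⟩, h4⟩
      exact ⟨h1, h2, h4⟩
    · rintro ⟨h1, h2, h3⟩
      exact ⟨⟨h1, h2, h3 ▸ hXH⟩, h3⟩
  rw [hset, Finset.sum_congr rfl (g := fun _ => Nat.card X)
    (fun P hP => by
      have : decomp L P = X := ((finite_primesEq L X p hp).mem_toFinset.mp hP).2.2
      rw [this]),
    Finset.sum_const, smul_eq_mul, Set.ncard_eq_toFinset_card _ (finite_primesEq L X p hp),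
    mul_comm]

end Combinatorics

section GroupCount

variable {G : Type*} [Group G] [Fintype G]

/-- Number of elements generating the subgroup `X`. -/
noncomputable def genCount (X : Subgroup G) : ℕ := Nat.card {x : G // Subgroup.zpowers x = X}

open Classical in
/-- `|X| = ∑_{Y ≤ X} #{x : zpowers x = Y}`. -/
lemma card_eq_sum_genCount (X : Subgroup G) :
    Nat.card X = ∑ Y ∈ Finset.univ.filter (fun Y : Subgroup G => Y ≤ X), genCount Y := by
  have hmaps : Set.MapsTo (fun x : G => Subgroup.zpowers x)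
      ((Finset.univ.filter (fun x : G => x ∈ X) : Finset G) : Set G)
      ((Finset.univ.filter (fun Y : Subgroup G => Y ≤ X) : Finset _) : Set _) := by
    intro x hx
    have hx' : x ∈ X := by simpa using hx
    simpa using hx'
  have h1 : Nat.card X = (Finset.univ.filter (fun x : G => x ∈ X)).card := by
    rw [Nat.card_eq_fintype_card, Fintype.card_subtype]
  rw [h1, Finset.card_eq_sum_card_fiberwise hmaps]
  refine Finset.sum_congr rfl fun Y hY => ?_
  have hYX : Y ≤ X := by simpa using hY
  unfold genCount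
  rw [Nat.card_eq_fintype_card, Fintype.card_subtype]
  congr 1
  ext x
  simp only [Finset.mem_filter, Finset.mem_univ, true_and, and_iff_right_iff_imp]
  intro hx
  exact hYX (hx ▸ Subgroup.mem_zpowers x)

lemma genCount_zpowers_pos (g : G) : 0 < genCount (Subgroup.zpowers g) := by
  unfold genCount
  have : Nonempty {x : G // Subgroup.zpowers x = Subgroup.zpowers g} := ⟨⟨g, rfl⟩⟩
  exact Nat.card_pos

end GroupCount

section Assembly

open Classical in
lemma sum_filter_le_eq {G : Type*} [Group G] [Fintype G] {M : Type*} [AddCommMonoid M]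
    (f : Subgroup G → M) (X : Subgroup G) :
    ∑ Y ∈ Finset.univ.filter (fun Y : Subgroup G => Y ≤ X), f Y =
      f X + ∑ Y ∈ Finset.univ.filter (fun Y : Subgroup G => Y < X), f Y := by
  have h1 : Finset.univ.filter (fun Y : Subgroup G => Y ≤ X) =
      insert X (Finset.univ.filter (fun Y : Subgroup G => Y < X)) := by
    ext Y
    simp only [Finset.mem_filter, Finset.mem_univ, true_and, Finset.mem_insert]
    rw [le_iff_lt_or_eq, or_comm]
  rw [h1, Finset.sum_insert (by simp)]

open Classical in
/-- Piece (M): the finite-level qualitative Frobenius density theorem from (Z), (B0), (A), (D). -/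
theorem frobFinite (hZ : PrimeSumStatement) (hB0 : PrimeCountBoundStatement)
    (hA : CountStatement) (hD : FrobStatement) : FrobFiniteStatement := by
  intro L _ _ _ σ S
  choose BA hBA using fun H : Subgroup (L ≃ₐ[ℚ] L) => hA L H
  obtain ⟨BD, hBD⟩ := hD L
  set B : Finset ℕ := S ∪ BD ∪ Finset.univ.biUnion BA with hB
  have hBS : ∀ {p : ℕ}, p ∉ B → p ∉ S := fun h hS => h (by simp [hB, hS])
  have hBBD : ∀ {p : ℕ}, p ∉ B → p ∉ BD := fun h hS => h (by simp [hB, hS])
  have hBBA : ∀ {p : ℕ} (H : Subgroup (L ≃ₐ[ℚ] L)), p ∉ B → p ∉ BA H := fun H h hS =>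
    h (by
      rw [hB, Finset.mem_union]
      exact Or.inr (Finset.mem_biUnion.mpr ⟨H, Finset.mem_univ _, hS⟩))
  set T : Finset Nat.Primes := Finset.subtype Nat.Prime B with hT
  have hTB : ∀ p : Nat.Primes, p ∉ T → (p : ℕ) ∉ B := fun p hp hpB =>
    hp (Finset.mem_subtype.mpr hpB)
  -- the two families of sequences
  set a : Subgroup (L ≃ₐ[ℚ] L) → Nat.Primes → ℝ :=
    fun H p => if (p : ℕ) ∈ B then 0 else (decompWeight L H p : ℝ) with ha
  set v : Subgroup (L ≃ₐ[ℚ] L) → Nat.Primes → ℝ :=
    fun X p => if (p : ℕ) ∈ B then 0 else ((Nat.card X * (primesEq L X p).ncard : ℕ) : ℝ) with hv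
  have hav : ∀ H p, a H p =
      ∑ X ∈ Finset.univ.filter (fun X : Subgroup (L ≃ₐ[ℚ] L) => X ≤ H), v X p := by
    intro H p
    by_cases hp : (p : ℕ) ∈ B
    · simp [ha, hv, hp]
    · simp only [ha, hv, hp, if_false]
      rw [decompWeight_eq_sum L H p p.2]
      push_cast
      rfl
  -- Claim A
  have hAd : ∀ H : Subgroup (L ≃ₐ[ℚ] L), HasLogDensity (a H) (Nat.card H) := by
    intro H
    obtain ⟨C, hC⟩ := hZ (IntermediateField.fixedField H)
    have h0 : HasLogDensity
        (fun p : Nat.Primes => (primeCount (IntermediateField.fixedField H) p : ℝ)) 1 := by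
      refine ⟨⟨(Module.finrank ℚ (IntermediateField.fixedField H) : ℝ), fun p => ?_⟩, C, ?_⟩
      · show |(primeCount (IntermediateField.fixedField H) p : ℝ)| ≤ _
        rw [abs_of_nonneg (Nat.cast_nonneg _)]
        exact_mod_cast hB0 (IntermediateField.fixedField H) p
      · intro s hs hs2
        rw [one_mul]
        exact hC s hs hs2
    have h1 := h0.const_mul (Nat.card H : ℝ)
    rw [mul_one] at h1
    refine h1.congr_of_finite T fun p hp => ?_
    have hpB := hTB p hp
    simp only [ha, hpB, if_false]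
    rw [← hBA H p p.2 (hBBA H hpB)]
    push_cast
    ring
  -- Claim V
  have hVd : ∀ X : Subgroup (L ≃ₐ[ℚ] L), HasLogDensity (v X) (genCount X) := by
    intro X
    induction X using WellFoundedLT.induction with
    | ind X ih =>
      have h1 : HasLogDensity
          (fun p => ∑ Y ∈ Finset.univ.filter (fun Y : Subgroup (L ≃ₐ[ℚ] L) => Y < X), v Y p)
          (∑ Y ∈ Finset.univ.filter (fun Y : Subgroup (L ≃ₐ[ℚ] L) => Y < X),
            (genCount Y : ℝ)) :=
        HasLogDensity.finset_sum _ _ _ fun Y hY => ih Y (by simpa using hY)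
      have h2 := (hAd X).sub h1
      have e1 : (fun p => a X p -
          ∑ Y ∈ Finset.univ.filter (fun Y : Subgroup (L ≃ₐ[ℚ] L) => Y < X), v Y p) = v X := by
        funext p
        rw [hav X p, sum_filter_le_eq]
        ring
      have e2 : (Nat.card X : ℝ) -
          ∑ Y ∈ Finset.univ.filter (fun Y : Subgroup (L ≃ₐ[ℚ] L) => Y < X), (genCount Y : ℝ) =
          (genCount X : ℝ) := by
        have := card_eq_sum_genCount X
        rw [sum_filter_le_eq] at this
        rw [this]
        push_cast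
        ring
      rw [e1, e2] at h2
      exact h2
  -- conclusion
  obtain ⟨p, hp⟩ := (hVd (Subgroup.zpowers σ)).exists_ne_zero
    (by exact_mod_cast genCount_zpowers_pos σ)
  have hpB : (p : ℕ) ∉ B := by
    intro h
    apply hp
    simp [hv, h]
  simp only [hv, hpB, if_false] at hp
  have hne : (primesEq L (Subgroup.zpowers σ) p).ncard ≠ 0 := by
    intro h
    apply hp
    rw [h]
    simp
  obtain ⟨P, hP⟩ := Set.nonempty_of_ncard_ne_zero hne
  obtain ⟨hPprime, hpP, hdec⟩ := hP
  obtain ⟨hin, τ, hτ, hτdec⟩ := hBD p p.2 (hBBD hpB) P hPprime hpP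
  exact ⟨p, P, τ, p.2, hBS hpB, hPprime, hpP, hin, hτ, by rw [← hτdec, hdec]⟩

end Assembly

end Fermat.Agent.Lib.Cheb.H41
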